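import Fermat.Agent.S55.GFI.SUnitHerbrand

set_option autoImplicit false
set_option linter.unusedSectionVars false

/-!
# S55 / GFI-4: the first inequality in `S`-unit form
-/

namespace Fermat.Agent.S55

open NumberField IsDedekindDomain Fermat.Agent.S11 Fermat.Agent.S14

section FirstIneq

variable {K L : Type*} [Field K] [NumberField K] [Field L] [NumberField L] [Algebra K L]

/-- A Galois extension of prime degree is cyclic: there is a generator of the Galois group. -/
theorem gfi_exists_generator {p : ℕ} [hp : Fact p.Prime] [IsGalois K L]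
    (hdeg : Module.finrank K L = p) :
    ∃ σ : L ≃ₐ[K] L, ∀ τ : L ≃ₐ[K] L, τ ∈ Subgroup.zpowers σ := by
  have hcard : Nat.card (L ≃ₐ[K] L) = p := by rw [IsGalois.card_aut_eq_finrank, hdeg]
  have : IsCyclic (L ≃ₐ[K] L) := isCyclic_of_prime_card hcard
  exact IsCyclic.exists_generator

/-- The range of the abstract norm on `E_L` is the image of the range of the field norm. -/
theorem gfi_normHom_range [IsGalois K L] {n : ℕ} (hdeg : Module.finrank K L = n) (σ : L ≃ₐ[K] L)
    (hσ : ∀ τ : L ≃ₐ[K] L, τ ∈ Subgroup.zpowers σ) (S : Set (HeightOneSpectrum (𝓞 K))) :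
    (normHom n (gfiAut K S σ)).range = (gfiNorm K L S).range.map (gfiIncl K L S) := by
  ext y
  constructor
  · rintro ⟨x, rfl⟩
    exact ⟨gfiNorm K L S x, ⟨x, rfl⟩, gfiIncl_gfiNorm hdeg σ hσ S x⟩
  · rintro ⟨_, ⟨x, rfl⟩, rfl⟩
    exact ⟨x, (gfiIncl_gfiNorm hdeg σ hσ S x).symm⟩

/-- **First inequality, `S`-unit form**: `L/K` Galois of odd prime degree `p`, `ζ_p ∈ K`,
unramified outside `S`, `Cl_S(K) = 1`.  Then `[E_K : N_{L/K} E_L]` is finite and
`p * [E_K : N E_L] ≤ p ^ #nonsplit(S)`. -/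
theorem gfi_first_inequality {p : ℕ} [hp : Fact p.Prime] (hp2 : p ≠ 2) [IsGalois K L]
    (hdeg : Module.finrank K L = p) {ζ : K} (hζ : IsPrimitiveRoot ζ p)
    (S : Finset (HeightOneSpectrum (𝓞 K)))
    (hunr : GfiUnramOutside K L (S : Set (HeightOneSpectrum (𝓞 K))))
    (hCl : GfiClassTrivial K (S : Set (HeightOneSpectrum (𝓞 K)))) :
    (gfiNorm K L (S : Set (HeightOneSpectrum (𝓞 K)))).range.index ≠ 0 ∧
      p * (gfiNorm K L (S : Set (HeightOneSpectrum (𝓞 K)))).range.index ≤
        p ^ (gfiNonsplit K L S).card := by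
  obtain ⟨σ, hσ⟩ := gfi_exists_generator (K := K) (L := L) hdeg
  obtain ⟨h1, h0, hle⟩ := gfi_herbrand_sunits hp2 hdeg σ hσ hζ S
  set SK : Set (HeightOneSpectrum (𝓞 K)) := (S : Set (HeightOneSpectrum (𝓞 K))) with hSK
  have hH1 : (divHom (gfiAut K SK σ)).range.relIndex (normHom p (gfiAut K SK σ)).ker = 1 :=
    Subgroup.relIndex_eq_one.mpr (gfi_h1_trivial hdeg σ hσ SK hunr hCl)
  have hidx : (normHom p (gfiAut K SK σ)).range.relIndex (divHom (gfiAut K SK σ)).ker =
      (gfiNorm K L SK).range.index := by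
    rw [gfi_normHom_range hdeg σ hσ SK, gfi_divHom_ker σ hσ SK, MonoidHom.range_eq_map (gfiIncl K L SK),
      Subgroup.relIndex_map_map_of_injective _ _ (gfiIncl_injective SK),
      Subgroup.relIndex_top_right]
  rw [hH1, mul_one, hidx] at hle
  rw [hidx] at h0
  exact ⟨h0, hle⟩

/-- Under the hypotheses of the first inequality some prime of `S` does not split in `L`. -/
theorem gfi_nonsplit_nonempty {p : ℕ} [hp : Fact p.Prime] (hp2 : p ≠ 2) [IsGalois K L]
    (hdeg : Module.finrank K L = p) {ζ : K} (hζ : IsPrimitiveRoot ζ p)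
    (S : Finset (HeightOneSpectrum (𝓞 K)))
    (hunr : GfiUnramOutside K L (S : Set (HeightOneSpectrum (𝓞 K))))
    (hCl : GfiClassTrivial K (S : Set (HeightOneSpectrum (𝓞 K)))) :
    (gfiNonsplit K L S).Nonempty := by
  obtain ⟨h0, hle⟩ := gfi_first_inequality hp2 hdeg hζ S hunr hCl
  rw [← Finset.card_pos]
  by_contra hcon
  have ht : (gfiNonsplit K L S).card = 0 := by omega
  rw [ht, pow_zero] at hle
  have h1 : 1 ≤ (gfiNorm K L (S : Set (HeightOneSpectrum (𝓞 K)))).range.index :=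
    Nat.one_le_iff_ne_zero.mpr h0
  have h2 : 2 ≤ p := hp.out.two_le
  nlinarith

/-- Packaged form: a homomorphism from `E_K` killing the norms from `E_L` has image of order at
most `p ^ (#nonsplit(S) - 1)`; so if the target is a group of order `p ^ #nonsplit(S)` (e.g.
`∏_{v ∈ S} K_v^× / N L_w^×`) its image has index at least `p`. -/
theorem gfi_card_range_le {p : ℕ} [hp : Fact p.Prime] (hp2 : p ≠ 2) [IsGalois K L]
    (hdeg : Module.finrank K L = p) {ζ : K} (hζ : IsPrimitiveRoot ζ p)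
    (S : Finset (HeightOneSpectrum (𝓞 K)))
    (hunr : GfiUnramOutside K L (S : Set (HeightOneSpectrum (𝓞 K))))
    (hCl : GfiClassTrivial K (S : Set (HeightOneSpectrum (𝓞 K))))
    {Q : Type*} [Group Q] (φ : (S : Set (HeightOneSpectrum (𝓞 K))).unit K →* Q)
    (hφ : ∀ x, φ (gfiNorm K L (S : Set (HeightOneSpectrum (𝓞 K))) x) = 1) :
    p * Nat.card φ.range ≤ p ^ (gfiNonsplit K L S).card := by
  obtain ⟨h0, hle⟩ := gfi_first_inequality hp2 hdeg hζ S hunr hCl
  have hker : (gfiNorm K L (S : Set (HeightOneSpectrum (𝓞 K)))).range ≤ φ.ker := by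
    rintro _ ⟨x, rfl⟩
    exact hφ x
  have hdvd : φ.ker.index ∣ (gfiNorm K L (S : Set (HeightOneSpectrum (𝓞 K)))).range.index :=
    Subgroup.index_dvd_of_le hker
  have hle' : φ.ker.index ≤ (gfiNorm K L (S : Set (HeightOneSpectrum (𝓞 K)))).range.index :=
    Nat.le_of_dvd (Nat.pos_of_ne_zero h0) hdvd
  rw [← Subgroup.index_ker]
  exact (Nat.mul_le_mul_left p hle').trans hle

/-- Refined packaged form (the shape used for the Hasse norm theorem): for a homomorphism `φ` from
`E_K` killing the norms from `E_L`,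
`p * (|im φ| * [ker φ : N E_L]) ≤ p ^ #nonsplit(S)`.  With `φ : E_K → ∏_{v ∈ S} K_v^× / N L_w^×`
(a group of order `p ^ #nonsplit(S)`) and the second inequality `[target : im φ] ≤ p` this gives
`ker φ = N E_L`: an `S`-unit which is a local norm everywhere is the norm of an `S_L`-unit. -/
theorem gfi_card_range_mul_relIndex_le {p : ℕ} [hp : Fact p.Prime] (hp2 : p ≠ 2) [IsGalois K L]
    (hdeg : Module.finrank K L = p) {ζ : K} (hζ : IsPrimitiveRoot ζ p)
    (S : Finset (HeightOneSpectrum (𝓞 K)))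
    (hunr : GfiUnramOutside K L (S : Set (HeightOneSpectrum (𝓞 K))))
    (hCl : GfiClassTrivial K (S : Set (HeightOneSpectrum (𝓞 K))))
    {Q : Type*} [Group Q] (φ : (S : Set (HeightOneSpectrum (𝓞 K))).unit K →* Q)
    (hφ : ∀ x, φ (gfiNorm K L (S : Set (HeightOneSpectrum (𝓞 K))) x) = 1) :
    (gfiNorm K L (S : Set (HeightOneSpectrum (𝓞 K)))).range.relIndex φ.ker ≠ 0 ∧
    p * (Nat.card φ.range *
      (gfiNorm K L (S : Set (HeightOneSpectrum (𝓞 K)))).range.relIndex φ.ker) ≤
        p ^ (gfiNonsplit K L S).card := by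
  obtain ⟨h0, hle⟩ := gfi_first_inequality hp2 hdeg hζ S hunr hCl
  have hker : (gfiNorm K L (S : Set (HeightOneSpectrum (𝓞 K)))).range ≤ φ.ker := by
    rintro _ ⟨x, rfl⟩
    exact hφ x
  have hmul := Subgroup.relIndex_mul_index hker
  rw [← Subgroup.index_ker, mul_comm φ.ker.index, hmul]
  refine ⟨?_, hle⟩
  intro h
  rw [h, zero_mul] at hmul
  exact h0 hmul.symm

end FirstIneq

end Fermat.Agent.S55
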