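import Mathlib
import Fermat.Agent.S14.HerbrandUnits

set_option autoImplicit false
set_option linter.unusedSectionVars false

/-!
# S55 / GFI (global first inequality via the Herbrand quotient of `S`-units): definitions

`K ⊆ L` number fields, `S` a set of finite primes of `K` (`HeightOneSpectrum (𝓞 K)`).
* `gfiAbove K L S`    : the primes of `L` above `S`;  `E_L := (gfiAbove K L S).unit L` (Mathlib
  `Set.unit`, a `Subgroup Lˣ`), `E_K := S.unit K`.
* `gfiFiber K L v`    : the primes of `L` above `v`.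
* `gfiNonsplit K L S` : the `v ∈ S` (a `Finset`) with exactly one prime of `L` above them.
* `gfiPrimeMap σ w`   : the prime `σ(w)`;  `gfi_valuation_primeMap`, `gfi_valuation_aut`.
* `gfiAut K S σ`      : the action of `σ ∈ Gal(L/K)` on `E_L`.
* `gfiIncl K L S`     : the inclusion `E_K → E_L`;  `gfiNorm K L S : E_L →* E_K`... (see `Norm.lean`).
The abstract operators are `Fermat.Agent.S11.normHom p s` (`x ↦ ∏_{i<p} s^i x`) and
`Fermat.Agent.S11.divHom s` (`x ↦ s x / x`).
-/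

namespace Fermat.Agent.S55

open NumberField IsDedekindDomain

section ringEquiv

variable {R R' : Type*} [CommRing R] [IsDedekindDomain R] [CommRing R'] [IsDedekindDomain R']

theorem gfi_equivOfRingEquiv_asIdeal (e : R ≃+* R') (w : HeightOneSpectrum R) :
    (HeightOneSpectrum.equivOfRingEquiv e w).asIdeal = w.asIdeal.map (e : R →+* R') :=
  Ideal.comap_symm e

theorem gfi_mem_pow_equiv (e : R ≃+* R') (w : HeightOneSpectrum R) (r : R) (n : ℕ) :
    e r ∈ (HeightOneSpectrum.equivOfRingEquiv e w).asIdeal ^ n ↔ r ∈ w.asIdeal ^ n := by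
  rw [gfi_equivOfRingEquiv_asIdeal, ← Ideal.map_pow]
  exact Ideal.apply_mem_of_equiv_iff

/-- A ring isomorphism transports the adic valuations. -/
theorem gfi_intValuation_equiv (e : R ≃+* R') (w : HeightOneSpectrum R) (r : R) :
    (HeightOneSpectrum.equivOfRingEquiv e w).intValuation (e r) = w.intValuation r := by
  by_cases hr : r = 0
  · rw [hr, map_zero, map_zero, map_zero]
  have hr' : e r ≠ 0 := by
    intro h
    exact hr (e.injective (h.trans (map_zero e).symm))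
  apply le_antisymm
  · rw [HeightOneSpectrum.intValuation_eq_exp_neg_multiplicity w hr,
      HeightOneSpectrum.intValuation_le_pow_iff_mem, gfi_mem_pow_equiv,
      ← HeightOneSpectrum.intValuation_le_pow_iff_mem,
      HeightOneSpectrum.intValuation_eq_exp_neg_multiplicity w hr]
  · rw [HeightOneSpectrum.intValuation_eq_exp_neg_multiplicity _ hr',
      HeightOneSpectrum.intValuation_le_pow_iff_mem, ← gfi_mem_pow_equiv e,
      ← HeightOneSpectrum.intValuation_le_pow_iff_mem,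
      HeightOneSpectrum.intValuation_eq_exp_neg_multiplicity _ hr']

end ringEquiv

section defs

variable (K L : Type*) [Field K] [NumberField K] [Field L] [NumberField L] [Algebra K L]

/-- The primes of `L` lying over a set `S` of primes of `K`. -/
def gfiAbove (S : Set (HeightOneSpectrum (𝓞 K))) : Set (HeightOneSpectrum (𝓞 L)) :=
  {w | w.under (𝓞 K) ∈ S}

/-- The primes of `L` lying over `v`. -/
def gfiFiber (v : HeightOneSpectrum (𝓞 K)) : Set (HeightOneSpectrum (𝓞 L)) :=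
  {w | w.under (𝓞 K) = v}

open Classical in
/-- The primes in `S` with exactly one prime of `L` above them. -/
noncomputable def gfiNonsplit (S : Finset (HeightOneSpectrum (𝓞 K))) :
    Finset (HeightOneSpectrum (𝓞 K)) :=
  S.filter fun v => (gfiFiber K L v).ncard = 1

variable {K L}

theorem mem_gfiAbove {S : Set (HeightOneSpectrum (𝓞 K))} {w : HeightOneSpectrum (𝓞 L)} :
    w ∈ gfiAbove K L S ↔ w.under (𝓞 K) ∈ S := Iff.rfl

theorem mem_gfiFiber {v : HeightOneSpectrum (𝓞 K)} {w : HeightOneSpectrum (𝓞 L)} :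
    w ∈ gfiFiber K L v ↔ w.under (𝓞 K) = v := Iff.rfl

theorem mem_gfiNonsplit {S : Finset (HeightOneSpectrum (𝓞 K))} {v : HeightOneSpectrum (𝓞 K)} :
    v ∈ gfiNonsplit K L S ↔ v ∈ S ∧ (gfiFiber K L v).ncard = 1 := by
  classical
  simp [gfiNonsplit]

/-- The automorphism of `𝓞 L` induced by `σ`. -/
noncomputable def gfiIntAut (σ : L ≃ₐ[K] L) : 𝓞 L ≃+* 𝓞 L :=
  RingOfIntegers.mapRingEquiv (σ : L ≃+* L)

theorem gfiIntAut_apply (σ : L ≃ₐ[K] L) (x : 𝓞 L) : ((gfiIntAut σ x : 𝓞 L) : L) = σ (x : L) := rfl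

theorem gfiIntAut_algebraMap (σ : L ≃ₐ[K] L) (a : 𝓞 K) :
    gfiIntAut σ (algebraMap (𝓞 K) (𝓞 L) a) = algebraMap (𝓞 K) (𝓞 L) a := by
  apply RingOfIntegers.ext
  rw [gfiIntAut_apply]
  exact σ.commutes (a : K)

/-- The prime `σ(w)` of `L`. -/
noncomputable def gfiPrimeMap (σ : L ≃ₐ[K] L) (w : HeightOneSpectrum (𝓞 L)) :
    HeightOneSpectrum (𝓞 L) :=
  HeightOneSpectrum.equivOfRingEquiv (gfiIntAut σ) w

theorem gfiPrimeMap_asIdeal (σ : L ≃ₐ[K] L) (w : HeightOneSpectrum (𝓞 L)) :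
    (gfiPrimeMap σ w).asIdeal = w.asIdeal.map (gfiIntAut σ : 𝓞 L →+* 𝓞 L) :=
  gfi_equivOfRingEquiv_asIdeal _ _

theorem mem_gfiPrimeMap (σ : L ≃ₐ[K] L) (w : HeightOneSpectrum (𝓞 L)) (x : 𝓞 L) :
    gfiIntAut σ x ∈ (gfiPrimeMap σ w).asIdeal ↔ x ∈ w.asIdeal := by
  rw [gfiPrimeMap_asIdeal]
  exact Ideal.apply_mem_of_equiv_iff

/-- `σ(w)` lies over the same prime of `K` as `w`. -/
theorem gfiPrimeMap_under (σ : L ≃ₐ[K] L) (w : HeightOneSpectrum (𝓞 L)) :
    (gfiPrimeMap σ w).under (𝓞 K) = w.under (𝓞 K) := by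
  ext a
  show algebraMap (𝓞 K) (𝓞 L) a ∈ (gfiPrimeMap σ w).asIdeal ↔ algebraMap (𝓞 K) (𝓞 L) a ∈ w.asIdeal
  rw [← gfiIntAut_algebraMap σ a, mem_gfiPrimeMap, gfiIntAut_algebraMap]

/-- `v_{σ w}(σ x) = v_w(x)`. -/
theorem gfi_valuation_primeMap (σ : L ≃ₐ[K] L) (w : HeightOneSpectrum (𝓞 L)) (x : L) :
    (gfiPrimeMap σ w).valuation L (σ x) = w.valuation L x := by
  obtain ⟨a, b, _, rfl⟩ := IsFractionRing.div_surjective (A := 𝓞 L) x
  have h : ∀ c : 𝓞 L, σ (algebraMap (𝓞 L) L c) = algebraMap (𝓞 L) L (gfiIntAut σ c) := fun c => rfl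
  rw [map_div₀, h, h, map_div₀, map_div₀, HeightOneSpectrum.valuation_of_algebraMap,
    HeightOneSpectrum.valuation_of_algebraMap, HeightOneSpectrum.valuation_of_algebraMap,
    HeightOneSpectrum.valuation_of_algebraMap]
  unfold gfiPrimeMap
  rw [gfi_intValuation_equiv, gfi_intValuation_equiv]

theorem gfiPrimeMap_symm_apply (σ : L ≃ₐ[K] L) (w : HeightOneSpectrum (𝓞 L)) :
    gfiPrimeMap σ.symm (gfiPrimeMap σ w) = w := by
  ext x
  have hx : gfiIntAut σ.symm (gfiIntAut σ x) = x := by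
    apply RingOfIntegers.ext
    rw [gfiIntAut_apply, gfiIntAut_apply]
    exact σ.symm_apply_apply _
  have h1 := (mem_gfiPrimeMap σ.symm (gfiPrimeMap σ w) (gfiIntAut σ x)).trans
    (mem_gfiPrimeMap σ w x)
  rwa [hx] at h1

theorem gfiPrimeMap_apply_symm (σ : L ≃ₐ[K] L) (w : HeightOneSpectrum (𝓞 L)) :
    gfiPrimeMap σ (gfiPrimeMap σ.symm w) = w := by
  have := gfiPrimeMap_symm_apply σ.symm w
  rwa [AlgEquiv.symm_symm] at this

/-- `v_w(σ x) = v_{σ⁻¹ w}(x)`. -/
theorem gfi_valuation_aut (σ : L ≃ₐ[K] L) (w : HeightOneSpectrum (𝓞 L)) (x : L) :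
    w.valuation L (σ x) = (gfiPrimeMap σ.symm w).valuation L x := by
  have := gfi_valuation_primeMap σ (gfiPrimeMap σ.symm w) x
  rwa [gfiPrimeMap_apply_symm] at this

theorem gfiPrimeMap_mem_gfiAbove_iff (σ : L ≃ₐ[K] L) (S : Set (HeightOneSpectrum (𝓞 K)))
    (w : HeightOneSpectrum (𝓞 L)) : gfiPrimeMap σ w ∈ gfiAbove K L S ↔ w ∈ gfiAbove K L S := by
  rw [mem_gfiAbove, mem_gfiAbove, gfiPrimeMap_under]

/-- The `S_L`-units are stable under `Gal(L/K)`. -/
theorem gfi_map_mem_unit (S : Set (HeightOneSpectrum (𝓞 K))) (σ : L ≃ₐ[K] L) {x : Lˣ}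
    (hx : x ∈ (gfiAbove K L S).unit L) :
    Units.map (σ : L →* L) x ∈ (gfiAbove K L S).unit L := by
  intro w hw
  show w.valuation L (σ (x : L)) = 1
  rw [gfi_valuation_aut]
  apply hx
  rwa [gfiPrimeMap_mem_gfiAbove_iff]

variable (K)

/-- The action of `σ ∈ Gal(L/K)` on the `S_L`-units of `L`. -/
noncomputable def gfiAut (S : Set (HeightOneSpectrum (𝓞 K))) (σ : L ≃ₐ[K] L) :
    (gfiAbove K L S).unit L →* (gfiAbove K L S).unit L :=
  ((Units.map (σ : L →* L)).comp ((gfiAbove K L S).unit L).subtype).codRestrict _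
    fun x => gfi_map_mem_unit S σ x.2

variable {K}

theorem gfiAut_apply (S : Set (HeightOneSpectrum (𝓞 K))) (σ : L ≃ₐ[K] L)
    (x : (gfiAbove K L S).unit L) : (((gfiAut K S σ x : (gfiAbove K L S).unit L) : Lˣ) : L) =
      σ ((x : Lˣ) : L) := rfl

theorem gfiAut_iterate (S : Set (HeightOneSpectrum (𝓞 K))) (σ : L ≃ₐ[K] L) (i : ℕ)
    (x : (gfiAbove K L S).unit L) :
    ((((gfiAut K S σ)^[i] x : (gfiAbove K L S).unit L) : Lˣ) : L) = (σ ^ i) ((x : Lˣ) : L) := by
  induction i with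
  | zero => simp
  | succ i ih =>
    rw [Function.iterate_succ_apply', gfiAut_apply, ih, pow_succ', AlgEquiv.mul_apply]

theorem gfi_unit_ext {T : Set (HeightOneSpectrum (𝓞 L))} {x y : T.unit L}
    (h : ((x : Lˣ) : L) = ((y : Lˣ) : L)) : x = y :=
  Subtype.ext (Units.ext h)

instance gfi_liesOver_under (w : HeightOneSpectrum (𝓞 L)) :
    w.asIdeal.LiesOver (w.under (𝓞 K)).asIdeal := ⟨rfl⟩

/-- The ramification index `e(w | w ∩ K)`. -/
noncomputable def gfiRamIdx (K : Type*) {L : Type*} [Field K] [NumberField K] [Field L]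
    [NumberField L] [Algebra K L] (w : HeightOneSpectrum (𝓞 L)) : ℕ :=
  (w.under (𝓞 K)).asIdeal.ramificationIdx' w.asIdeal

theorem gfiRamIdx_ne_zero (w : HeightOneSpectrum (𝓞 L)) : gfiRamIdx K w ≠ 0 :=
  Ideal.IsDedekindDomain.ramificationIdx'_ne_zero_of_liesOver w.asIdeal (w.under (𝓞 K)).ne_bot

theorem gfi_valuation_algebraMap (w : HeightOneSpectrum (𝓞 L)) (x : K) :
    w.valuation L (algebraMap K L x) = (w.under (𝓞 K)).valuation K x ^ gfiRamIdx K w :=
  (HeightOneSpectrum.valuation_liesOver L (w.under (𝓞 K)) w x).symm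

theorem gfi_valuation_algebraMap_eq_one_iff (w : HeightOneSpectrum (𝓞 L)) (x : K) :
    w.valuation L (algebraMap K L x) = 1 ↔ (w.under (𝓞 K)).valuation K x = 1 := by
  rw [gfi_valuation_algebraMap]
  exact pow_eq_one_iff_left (gfiRamIdx_ne_zero w)

theorem gfi_exists_under_eq (v : HeightOneSpectrum (𝓞 K)) :
    ∃ w : HeightOneSpectrum (𝓞 L), w.under (𝓞 K) = v := by
  have hinj : Function.Injective (algebraMap (𝓞 K) (𝓞 L)) :=
    FaithfulSMul.algebraMap_injective (𝓞 K) (𝓞 L)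
  obtain ⟨P, hP, hPv⟩ := Ideal.exists_ideal_over_prime_of_isIntegral_of_isDomain (S := 𝓞 L)
    v.asIdeal (by rw [(RingHom.injective_iff_ker_eq_bot _).mp hinj]; exact bot_le)
  refine ⟨⟨P, hP, ?_⟩, HeightOneSpectrum.ext hPv⟩
  rintro rfl
  apply v.ne_bot
  rw [← hPv]
  exact Ideal.comap_bot_of_injective _ hinj

/-- An element of `K` is an `S`-unit iff its image in `L` is an `S_L`-unit. -/
theorem gfi_algebraMap_mem_unit_iff (S : Set (HeightOneSpectrum (𝓞 K))) (x : Kˣ) :
    Units.map (algebraMap K L : K →* L) x ∈ (gfiAbove K L S).unit L ↔ x ∈ S.unit K := by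
  constructor
  · intro h v hv
    obtain ⟨w, rfl⟩ := gfi_exists_under_eq (L := L) v
    exact (gfi_valuation_algebraMap_eq_one_iff w (x : K)).mp (h w hv)
  · intro h w hw
    exact (gfi_valuation_algebraMap_eq_one_iff w (x : K)).mpr (h _ hw)

variable (K L)

/-- The inclusion `E_K → E_L` of the `S`-units of `K` into the `S_L`-units of `L`. -/
noncomputable def gfiIncl (S : Set (HeightOneSpectrum (𝓞 K))) :
    S.unit K →* (gfiAbove K L S).unit L :=
  ((Units.map (algebraMap K L : K →* L)).comp (S.unit K).subtype).codRestrict _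
    fun x => (gfi_algebraMap_mem_unit_iff S (x : Kˣ)).mpr x.2

variable {K L}

theorem gfiIncl_apply (S : Set (HeightOneSpectrum (𝓞 K))) (x : S.unit K) :
    (((gfiIncl K L S x : (gfiAbove K L S).unit L) : Lˣ) : L) = algebraMap K L ((x : Kˣ) : K) := rfl

theorem gfiIncl_injective (S : Set (HeightOneSpectrum (𝓞 K))) :
    Function.Injective (gfiIncl K L S) := by
  intro x y h
  apply Subtype.ext
  apply Units.ext
  apply (algebraMap K L).injective
  rw [← gfiIncl_apply, ← gfiIncl_apply, h]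

/-- `L/K` is unramified at all primes of `L` not above `S`. -/
def GfiUnramOutside (K L : Type*) [Field K] [NumberField K] [Field L] [NumberField L]
    [Algebra K L] (S : Set (HeightOneSpectrum (𝓞 K))) : Prop :=
  ∀ w : HeightOneSpectrum (𝓞 L), w.under (𝓞 K) ∉ S → gfiRamIdx K w = 1

/-- The `S`-class group of `K` is trivial: every divisor is principal up to `S`. -/
def GfiClassTrivial (K : Type*) [Field K] [NumberField K]
    (S : Set (HeightOneSpectrum (𝓞 K))) : Prop :=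
  ∀ m : HeightOneSpectrum (𝓞 K) →₀ ℤ, ∃ a : Kˣ, ∀ v, v ∉ S →
    v.valuation K (a : K) = WithZero.exp (m v)

end defs

end Fermat.Agent.S55
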