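import Mathlib
import Fermat.Agent.S55.GFI.Defs

set_option autoImplicit false
set_option linter.unusedSectionVars false

/-!
# S55 / GFI-2a: the primes above `S` in a Galois extension of prime degree
-/

namespace Fermat.Agent.S55

open NumberField IsDedekindDomain
open scoped Pointwise

variable {K L : Type*} [Field K] [NumberField K] [Field L] [NumberField L] [Algebra K L]

/-- the ideal of a prime in the fibre over `v` lies in `primesOver v` -/
theorem gfipl_asIdeal_mem_primesOver {v : HeightOneSpectrum (𝓞 K)} {w : HeightOneSpectrum (𝓞 L)}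
    (h : w.under (𝓞 K) = v) : w.asIdeal ∈ Ideal.primesOver v.asIdeal (𝓞 L) :=
  ⟨w.isPrime, ⟨by rw [← h]; rfl⟩⟩

/-- every prime ideal over `v` comes from a height one prime in the fibre -/
theorem gfipl_exists_of_mem_primesOver {v : HeightOneSpectrum (𝓞 K)} {P : Ideal (𝓞 L)}
    (hP : P ∈ Ideal.primesOver v.asIdeal (𝓞 L)) :
    ∃ w : HeightOneSpectrum (𝓞 L), w.under (𝓞 K) = v ∧ w.asIdeal = P := by
  obtain ⟨hPp, hPv⟩ := hP
  have hinj : Function.Injective (algebraMap (𝓞 K) (𝓞 L)) :=
    FaithfulSMul.algebraMap_injective (𝓞 K) (𝓞 L)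
  have hne : P ≠ ⊥ := by
    rintro rfl
    apply v.ne_bot
    rw [hPv.over]
    exact Ideal.comap_bot_of_injective _ hinj
  exact ⟨⟨P, hPp, hne⟩, HeightOneSpectrum.ext hPv.over.symm, rfl⟩

theorem gfipl_image_asIdeal (v : HeightOneSpectrum (𝓞 K)) :
    (fun w : HeightOneSpectrum (𝓞 L) => w.asIdeal) '' gfiFiber K L v =
      Ideal.primesOver v.asIdeal (𝓞 L) := by
  ext P
  constructor
  · rintro ⟨w, hw, rfl⟩
    exact gfipl_asIdeal_mem_primesOver hw
  · intro hP
    obtain ⟨w, hw, rfl⟩ := gfipl_exists_of_mem_primesOver hP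
    exact ⟨w, hw, rfl⟩

theorem gfipl_asIdeal_injective :
    Function.Injective (fun w : HeightOneSpectrum (𝓞 L) => w.asIdeal) :=
  fun _ _ h => HeightOneSpectrum.ext h

theorem gfiFiber_finite (v : HeightOneSpectrum (𝓞 K)) : (gfiFiber K L v).Finite := by
  apply Set.Finite.of_finite_image _ gfipl_asIdeal_injective.injOn
  rw [gfipl_image_asIdeal]
  exact IsDedekindDomain.primesOver_finite v.asIdeal (𝓞 L)

theorem gfipl_above_eq_biUnion (S : Set (HeightOneSpectrum (𝓞 K))) :
    gfiAbove K L S = ⋃ v ∈ S, gfiFiber K L v := by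
  ext w
  simp only [mem_gfiAbove, Set.mem_iUnion, mem_gfiFiber, exists_prop, exists_eq_right']

theorem gfiAbove_finite {S : Set (HeightOneSpectrum (𝓞 K))} (hS : S.Finite) :
    (gfiAbove K L S).Finite := by
  rw [gfipl_above_eq_biUnion]
  exact hS.biUnion fun v _ => gfiFiber_finite v

/-- `gfiPrimeMap σ w` is the translate `σ • w` of the ideal -/
theorem gfipl_primeMap_asIdeal_eq_smul (σ : L ≃ₐ[K] L) (w : HeightOneSpectrum (𝓞 L)) :
    (gfiPrimeMap σ w).asIdeal = σ • w.asIdeal := by
  rw [gfiPrimeMap_asIdeal, Ideal.pointwise_smul_def]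
  congr 1

/-- The Galois group acts transitively on the primes above a given prime. -/
theorem gfi_exists_primeMap_eq [IsGalois K L] {w w' : HeightOneSpectrum (𝓞 L)}
    (h : w.under (𝓞 K) = w'.under (𝓞 K)) : ∃ σ : L ≃ₐ[K] L, gfiPrimeMap σ w = w' := by
  have hunder : w.asIdeal.under (𝓞 K) = w'.asIdeal.under (𝓞 K) :=
    congrArg HeightOneSpectrum.asIdeal h
  obtain ⟨τ, hτ⟩ := Algebra.IsInvariant.exists_smul_of_under_eq (𝓞 K) (𝓞 L) (L ≃ₐ[K] L)
    w.asIdeal w'.asIdeal hunder
  refine ⟨τ, HeightOneSpectrum.ext ?_⟩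
  rw [gfipl_primeMap_asIdeal_eq_smul, hτ]

theorem gfipl_ncard_fiber (v : HeightOneSpectrum (𝓞 K)) :
    (gfiFiber K L v).ncard = (Ideal.primesOver v.asIdeal (𝓞 L)).ncard := by
  rw [← gfipl_image_asIdeal, Set.ncard_image_of_injective _ gfipl_asIdeal_injective]

/-- In a Galois extension of prime degree `p` there are `1` or `p` primes above each prime. -/
theorem gfiFiber_ncard [IsGalois K L] {p : ℕ} [Fact p.Prime] (hdeg : Module.finrank K L = p)
    (v : HeightOneSpectrum (𝓞 K)) :
    (gfiFiber K L v).ncard = 1 ∨ (gfiFiber K L v).ncard = p := by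
  have key := Ideal.ncard_primesOver_mul_ramificationIdxIn_mul_inertiaDegIn v.asIdeal (𝓞 L)
    (L ≃ₐ[K] L)
  rw [IsGalois.card_aut_eq_finrank, hdeg] at key
  rw [gfipl_ncard_fiber]
  exact (Nat.dvd_prime Fact.out).mp ⟨_, key.symm⟩

/-- `|S_L| + (p - 1) * #nonsplit = p * |S|`. -/
theorem gfiAbove_ncard [IsGalois K L] {p : ℕ} [Fact p.Prime] (hdeg : Module.finrank K L = p)
    (S : Finset (HeightOneSpectrum (𝓞 K))) :
    (gfiAbove K L (S : Set (HeightOneSpectrum (𝓞 K)))).ncard +
      (p - 1) * (gfiNonsplit K L S).card = p * S.card := by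
  classical
  have hp : p.Prime := Fact.out
  -- cardinality of the disjoint union
  have h1 : (gfiAbove K L (S : Set (HeightOneSpectrum (𝓞 K)))).ncard =
      ∑ v ∈ S, (gfiFiber K L v).ncard := by
    have hfin := gfiAbove_finite (L := L) S.finite_toSet
    rw [Set.ncard_eq_toFinset_card _ hfin]
    have : hfin.toFinset = S.biUnion fun v => (gfiFiber_finite (L := L) v).toFinset := by
      ext w
      simp only [Set.Finite.mem_toFinset, mem_gfiAbove, Finset.mem_coe, Finset.mem_biUnion,
        mem_gfiFiber, exists_eq_right']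
    rw [this, Finset.card_biUnion]
    · exact Finset.sum_congr rfl fun v _ => (Set.ncard_eq_toFinset_card _ _).symm
    · intro v _ v' _ hvv'
      rw [Function.onFun, Finset.disjoint_left]
      intro w hw hw'
      rw [Set.Finite.mem_toFinset, mem_gfiFiber] at hw hw'
      exact hvv' (hw.symm.trans hw')
  -- each fibre
  have h2 : ∀ v ∈ S, (gfiFiber K L v).ncard + (p - 1) * (if (gfiFiber K L v).ncard = 1 then 1 else 0)
      = p := by
    intro v _
    rcases gfiFiber_ncard hdeg v with h | h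
    · rw [h, if_pos rfl, mul_one]
      have := hp.one_lt
      omega
    · rw [h, if_neg hp.one_lt.ne', mul_zero, add_zero]
  have h3 : (gfiNonsplit K L S).card = ∑ v ∈ S, (if (gfiFiber K L v).ncard = 1 then 1 else 0) := by
    rw [gfiNonsplit, Finset.card_filter]
  rw [h1, h3, Finset.mul_sum, ← Finset.sum_add_distrib, Finset.sum_congr rfl h2, Finset.sum_const,
    smul_eq_mul, mul_comm]

end Fermat.Agent.S55
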