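import Mathlib

set_option autoImplicit false
set_option linter.unusedSectionVars false

/-!
# S55 / GFI: Hilbert 90 for cyclic extensions, universe polymorphic

Mathlib's `groupCohomology.exists_div_of_norm_eq_one` is stated for `K L : Type`; we rederive the
cyclic form from Noether's form `isMulCoboundary₁_of_isMulCocycle₁_of_aut_to_units`.
-/

namespace Fermat.Agent.S55

open groupCohomology

section

variable {K L : Type*} [Field K] [Field L] [Algebra K L]

/-- The partial norms `P i = ∏_{j<i} σ^j x`. -/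
noncomputable def gfiPartialNorm (σ : L ≃ₐ[K] L) (x : Lˣ) (i : ℕ) : Lˣ :=
  ∏ j ∈ Finset.range i, (σ ^ j) • x

theorem gfiPartialNorm_add (σ : L ≃ₐ[K] L) (x : Lˣ) (i j : ℕ) :
    gfiPartialNorm σ x (i + j) = gfiPartialNorm σ x i * (σ ^ i) • gfiPartialNorm σ x j := by
  unfold gfiPartialNorm
  rw [Finset.prod_range_add, Finset.smul_prod']
  congr 1
  refine Finset.prod_congr rfl fun k _ => ?_
  rw [pow_add, mul_smul]

theorem gfiPartialNorm_one (σ : L ≃ₐ[K] L) (x : Lˣ) : gfiPartialNorm σ x 1 = x := by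
  unfold gfiPartialNorm
  rw [Finset.prod_range_one, pow_zero, one_smul]

theorem gfiPartialNorm_mul (σ : L ≃ₐ[K] L) (x : Lˣ) {n : ℕ}
    (hx : gfiPartialNorm σ x n = 1) (q : ℕ) : gfiPartialNorm σ x (n * q) = 1 := by
  induction q with
  | zero => simp [gfiPartialNorm]
  | succ q ih =>
    rw [Nat.mul_succ, gfiPartialNorm_add, ih, hx, smul_one, mul_one]

theorem gfiPartialNorm_mod (σ : L ≃ₐ[K] L) (x : Lˣ) {n : ℕ} (hσn : σ ^ n = 1)
    (hx : gfiPartialNorm σ x n = 1) (i : ℕ) :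
    gfiPartialNorm σ x (i % n) = gfiPartialNorm σ x i := by
  conv_rhs => rw [← Nat.div_add_mod i n]
  rw [gfiPartialNorm_add, gfiPartialNorm_mul σ x hx, one_mul, pow_mul, hσn, one_pow, one_smul]

/-- **Hilbert 90** for a finite cyclic extension with generator `σ` of order `n`: if
`∏_{i<n} σ^i x = 1` then `x = σ y / y`. -/
theorem gfi_hilbert90_cyclic [FiniteDimensional K L] (σ : L ≃ₐ[K] L)
    (hσ : ∀ τ : L ≃ₐ[K] L, τ ∈ Subgroup.zpowers σ) {n : ℕ} (hn : orderOf σ = n) (x : Lˣ)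
    (hx : ∏ i ∈ Finset.range n, (σ ^ i) • x = 1) : ∃ y : Lˣ, σ • y / y = x := by
  have hσn : σ ^ n = 1 := by rw [← hn]; exact pow_orderOf_eq_one σ
  have hx' : gfiPartialNorm σ x n = 1 := hx
  -- exponent function
  have hex : ∀ τ : L ≃ₐ[K] L, ∃ k : ℕ, σ ^ k = τ := by
    intro τ
    have h1 := (isOfFinOrder_of_finite σ).mem_powers_iff_mem_zpowers.mpr (hσ τ)
    exact (Submonoid.mem_powers_iff τ σ).mp h1
  choose k hk using hex
  let f : (L ≃ₐ[K] L) → Lˣ := fun τ => gfiPartialNorm σ x (k τ)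
  have hf_pow : ∀ i : ℕ, f (σ ^ i) = gfiPartialNorm σ x i := by
    intro i
    have h1 : σ ^ (k (σ ^ i)) = σ ^ i := hk (σ ^ i)
    have h2 : k (σ ^ i) ≡ i [MOD n] := by
      rw [← hn]
      exact pow_eq_pow_iff_modEq.mp h1
    show gfiPartialNorm σ x (k (σ ^ i)) = gfiPartialNorm σ x i
    rw [← gfiPartialNorm_mod σ x hσn hx' (k (σ ^ i)), ← gfiPartialNorm_mod σ x hσn hx' i]
    congr 1
  have hf : IsMulCocycle₁ f := by
    intro g h
    obtain ⟨i, rfl⟩ : ∃ i : ℕ, σ ^ i = g := ⟨k g, hk g⟩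
    obtain ⟨j, rfl⟩ : ∃ j : ℕ, σ ^ j = h := ⟨k h, hk h⟩
    rw [← pow_add, hf_pow, hf_pow, hf_pow, gfiPartialNorm_add, mul_comm]
  obtain ⟨β, hβ⟩ := isMulCoboundary₁_of_isMulCocycle₁_of_aut_to_units f hf
  refine ⟨β, ?_⟩
  have := hβ σ
  rw [this]
  have h1 : f σ = f (σ ^ 1) := by rw [pow_one]
  rw [h1, hf_pow, gfiPartialNorm_one]

end

end Fermat.Agent.S55
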