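import Fermat.Agent.S55.GFI.Fixed
import Fermat.Agent.S55.GFI.Hilbert90

set_option autoImplicit false
set_option linter.unusedSectionVars false

/-!
# S55 / GFI-3: `H¹(G, E_L) = 1` when `L/K` is unramified outside `S` and `Cl_S(K) = 1`
-/

namespace Fermat.Agent.S55

open NumberField IsDedekindDomain Fermat.Agent.S11

section H1

variable {K L : Type*} [Field K] [NumberField K] [Field L] [NumberField L] [Algebra K L]

/-- The partial norms of an `S_L`-unit are `S_L`-units. -/
theorem gfiPartialNorm_mem_unit (S : Set (HeightOneSpectrum (𝓞 K))) (σ : L ≃ₐ[K] L) {x : Lˣ}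
    (hx : x ∈ (gfiAbove K L S).unit L) (i : ℕ) :
    gfiPartialNorm σ x i ∈ (gfiAbove K L S).unit L :=
  Subgroup.prod_mem _ fun j _ => gfi_map_mem_unit S (σ ^ j) hx

/-- If `σ y / y = x` then `σ^i y / y` is the `i`-th partial norm of `x`. -/
theorem gfi_pow_smul_div (σ : L ≃ₐ[K] L) {x y : Lˣ} (hy : σ • y / y = x) (i : ℕ) :
    (σ ^ i) • y / y = gfiPartialNorm σ x i := by
  induction i with
  | zero => simp [gfiPartialNorm]
  | succ i ih =>
    rw [gfiPartialNorm_add, gfiPartialNorm_one, ← ih, ← hy, smul_div', ← mul_smul, ← pow_succ]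
    rw [div_mul_div_comm, mul_comm y ((σ ^ i) • y), mul_div_mul_left_eq_div]

/-- Products over a cyclic Galois group with generator `σ` are products over the powers of `σ`
(`CommMonoid`-valued version of `Fermat.Agent.S11.prod_aut_eq_prod_range`). -/
theorem gfi_prod_aut_eq_prod_range [IsGalois K L] {M : Type*} [CommMonoid M] {n : ℕ}
    (hdeg : Module.finrank K L = n) (σ : L ≃ₐ[K] L)
    (hσ : ∀ τ : L ≃ₐ[K] L, τ ∈ Subgroup.zpowers σ) (f : (L ≃ₐ[K] L) → M) :
    ∏ τ : L ≃ₐ[K] L, f τ = ∏ i ∈ Finset.range n, f (σ ^ i) := by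
  classical
  have hcard : Nat.card (L ≃ₐ[K] L) = n := by rw [IsGalois.card_aut_eq_finrank, hdeg]
  have hord : orderOf σ = n := by rw [orderOf_eq_card_of_forall_mem_zpowers hσ, hcard]
  have himg := IsCyclic.image_range_card hσ
  rw [hcard] at himg
  rw [← himg, Finset.prod_image]
  intro i hi j hj hij
  apply pow_injOn_Iio_orderOf (x := σ)
  · simpa [hord] using hi
  · simpa [hord] using hj
  · exact hij

/-- The set of primes where a nonzero element has nontrivial valuation is finite. -/
theorem gfi_finite_valuation_ne_one (z : Kˣ) :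
    {v : HeightOneSpectrum (𝓞 K) | v.valuation K (z : K) ≠ 1}.Finite := by
  have h1 := HeightOneSpectrum.Support.finite (𝓞 K) ((z : Kˣ) : K)
  have h2 := HeightOneSpectrum.Support.finite (𝓞 K) (((z⁻¹ : Kˣ) : Kˣ) : K)
  apply (h1.union h2).subset
  intro v hv
  rcases lt_or_gt_of_ne hv with h | h
  · right
    show 1 < v.valuation K (((z⁻¹ : Kˣ) : Kˣ) : K)
    rw [Units.val_inv_eq_inv_val, map_inv₀]
    exact (one_lt_inv₀ (by
      rw [zero_lt_iff]; exact (Valuation.ne_zero_iff _).mpr z.ne_zero)).mpr h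
  · left
    exact h

/-- `H¹(G, E_L) = 1` when `L/K` (cyclic with generator `σ`) is unramified outside `S` and the
`S`-class group of `K` is trivial: every `S_L`-unit of norm `1` is `σ u / u` with `u ∈ E_L`. -/
theorem gfi_h1_trivial [IsGalois K L] {n : ℕ} (hdeg : Module.finrank K L = n) (σ : L ≃ₐ[K] L)
    (hσ : ∀ τ : L ≃ₐ[K] L, τ ∈ Subgroup.zpowers σ) (S : Set (HeightOneSpectrum (𝓞 K)))
    (hunr : GfiUnramOutside K L S) (hCl : GfiClassTrivial K S) :
    (normHom n (gfiAut K S σ)).ker ≤ (divHom (gfiAut K S σ)).range := by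
  classical
  intro x hx
  have hn0 : n ≠ 0 := by
    rw [← hdeg]
    exact Module.finrank_pos.ne'
  have hcard : Nat.card (L ≃ₐ[K] L) = n := by rw [IsGalois.card_aut_eq_finrank, hdeg]
  have hord : orderOf σ = n := by rw [orderOf_eq_card_of_forall_mem_zpowers hσ, hcard]
  -- Hilbert 90
  have hprod : ∏ i ∈ Finset.range n, (σ ^ i) • (x : Lˣ) = 1 := by
    have h1 : normHom n (gfiAut K S σ) x = 1 := hx
    apply Units.ext
    rw [Units.coe_prod, Units.val_one]
    have h : ∀ (s : Finset ℕ) (f : ℕ → (gfiAbove K L S).unit L),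
        ((((∏ i ∈ s, f i : (gfiAbove K L S).unit L)) : Lˣ) : L) =
          ∏ i ∈ s, (((f i : Lˣ)) : L) := by
      intro s f
      rw [← Units.coe_prod]
      congr 1
      exact map_prod ((gfiAbove K L S).unit L).subtype f s
    have h2 : ((((normHom n (gfiAut K S σ) x : (gfiAbove K L S).unit L)) : Lˣ) : L) = 1 := by
      rw [h1]; rfl
    rw [S11.normHom_apply, h] at h2
    rw [← h2]
    exact Finset.prod_congr rfl fun i _ => (gfiAut_iterate S σ i x).symm
  obtain ⟨y, hy⟩ := gfi_hilbert90_cyclic σ hσ hord (x : Lˣ) hprod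
  -- the norm of `y`
  set z : Kˣ := Units.map (Algebra.norm K : L →* K) y with hz
  have hsmul : ∀ i : ℕ, (σ ^ i) • y = y * gfiPartialNorm σ (x : Lˣ) i := by
    intro i
    rw [← gfi_pow_smul_div σ hy i, mul_div_cancel]
  have hzy : Units.map (algebraMap K L : K →* L) z *
      (∏ i ∈ Finset.range n, gfiPartialNorm σ (x : Lˣ) i)⁻¹ = y ^ n := by
    rw [hz, gfi_map_norm_eq_prod, gfi_prod_aut_eq_prod_range hdeg σ hσ
      (fun τ => Units.map (τ : L →* L) y)]
    have h1 : ∀ i ∈ Finset.range n, Units.map ((σ ^ i : L ≃ₐ[K] L) : L →* L) y =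
        y * gfiPartialNorm σ (x : Lˣ) i := fun i _ => hsmul i
    rw [Finset.prod_congr rfl h1, Finset.prod_mul_distrib, Finset.prod_const, Finset.card_range,
      mul_inv_cancel_right]
  have hPmem : (∏ i ∈ Finset.range n, gfiPartialNorm σ (x : Lˣ) i)⁻¹ ∈ (gfiAbove K L S).unit L :=
    Subgroup.inv_mem _ (Subgroup.prod_mem _ fun i _ => gfiPartialNorm_mem_unit S σ x.2 i)
  -- valuations of `y` outside `S_L`
  have hval : ∀ w : HeightOneSpectrum (𝓞 L), w ∉ gfiAbove K L S →
      (w.valuation L (y : L)) ^ n = (w.under (𝓞 K)).valuation K (z : K) := by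
    intro w hw
    have h1 := congrArg (fun t : Lˣ => w.valuation L (t : L)) hzy
    simp only [Units.val_mul, map_mul, Units.val_pow_eq_pow_val, map_pow] at h1
    rw [← h1, hPmem w hw, mul_one]
    show w.valuation L (algebraMap K L (z : K)) = _
    rw [gfi_valuation_algebraMap, hunr w hw, pow_one]
  -- the divisor
  let c : HeightOneSpectrum (𝓞 K) → ℤ := fun v =>
    if v ∈ S then 0 else WithZero.log (v.valuation K (z : K)) / (n : ℤ)
  have hcfin : (Function.support c).Finite := by
    apply (gfi_finite_valuation_ne_one z).subset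
    intro v hv
    rw [Function.mem_support] at hv
    intro h1
    apply hv
    show (if v ∈ S then 0 else WithZero.log (v.valuation K (z : K)) / (n : ℤ)) = 0
    rw [h1, WithZero.log_one]
    simp
  obtain ⟨a, ha⟩ := hCl (Finsupp.ofSupportFinite c hcfin)
  -- the `S_L`-unit `u`
  set u : Lˣ := y / Units.map (algebraMap K L : K →* L) a with hu
  have hu_coe : (u : L) = (y : L) / algebraMap K L (a : K) := by
    rw [hu, Units.val_div_eq_div_val]; rfl
  have humem : u ∈ (gfiAbove K L S).unit L := by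
    intro w hw
    have hv : w.under (𝓞 K) ∉ S := hw
    show w.valuation L (u : L) = 1
    have hy0 : w.valuation L (y : L) ≠ 0 := (Valuation.ne_zero_iff _).mpr y.ne_zero
    have h1 : w.valuation L (algebraMap K L (a : K)) = w.valuation L (y : L) := by
      rw [gfi_valuation_algebraMap, hunr w hw, pow_one, ha _ hv, Finsupp.ofSupportFinite_coe]
      show WithZero.exp (if w.under (𝓞 K) ∈ S then 0 else
        WithZero.log ((w.under (𝓞 K)).valuation K (z : K)) / (n : ℤ)) = _
      rw [if_neg hv, ← hval w hw, WithZero.log_pow, nsmul_eq_mul,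
        Int.mul_ediv_cancel_left _ (Int.natCast_ne_zero.mpr hn0), WithZero.exp_log hy0]
    rw [hu_coe, map_div₀, h1, div_self hy0]
  refine ⟨⟨u, humem⟩, ?_⟩
  apply gfi_unit_ext
  rw [divHom_apply]
  show ((((gfiAut K S σ ⟨u, humem⟩ / ⟨u, humem⟩ : (gfiAbove K L S).unit L)) : Lˣ) : L) = _
  rw [Subgroup.coe_div, Units.val_div_eq_div_val, gfiAut_apply]
  show σ (u : L) / (u : L) = _
  have hy' : σ (y : L) / (y : L) = ((x : Lˣ) : L) := by
    rw [← hy, Units.val_div_eq_div_val]; rfl
  have ha0 : algebraMap K L (a : K) ≠ 0 := by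
    rw [Ne, map_eq_zero]; exact a.ne_zero
  rw [hu_coe, map_div₀, AlgEquiv.commutes, ← hy']
  field_simp

end H1

end Fermat.Agent.S55
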