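import Mathlib
import Fermat.Agent.S14.HerbrandAbstract

set_option autoImplicit false

/-!
# S55 / GFI-1: the abstract Herbrand inequality with defect

Generalisation of `Fermat.Agent.S14.herbrand_units_abstract` (the case `t = 0`).
-/

namespace Fermat.Agent.S55

open Subgroup Fermat.Agent.S11 Fermat.Agent.S14

section

variable {X : Type*} [CommGroup X] (p : ℕ) [hp : Fact p.Prime] (D N : X →* X)

/-- Abstract form of the Herbrand quotient of the `S`-units with defect `t` (the number of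
non-split primes): `p * |Ĥ⁰| ≤ p ^ t * |H¹|`. Here `D = σ - 1`, `N = 1 + σ + ... + σ^(p-1)`,
`[X : X^p] ≥ p ^ (p b - (p - 1) t)` and `[F : F^p] ≤ p ^ b` for `F = ker D`. -/
theorem gfi_herbrand_abstract (ζ : X) (b t : ℕ)
    (hND : ∀ x, N (D x) = 1) (hDN : ∀ x, D (N x) = 1)
    (hNF : ∀ x, D x = 1 → N x = x ^ p)
    (hT : ∀ x, x ^ p = 1 → D x = 1)
    (hDM : ∀ x, N x = 1 → ∃ y, N y = 1 ∧ D^[p - 1] x = y ^ p)
    (hPM : ∀ x, N x = 1 → ∃ y, N y = 1 ∧ x ^ p = D y)
    (hζ1 : ζ ≠ 1) (hζp : ζ ^ p = 1)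
    (hTfin : Finite (powMonoidHom p : X →* X).ker)
    (hX : (powMonoidHom p : X →* X).range.index ≠ 0)
    (hXge : p ^ (p * b) ≤ p ^ ((p - 1) * t) * (powMonoidHom p : X →* X).range.index)
    (hF0 : ((D.ker).map (powMonoidHom p)).relIndex D.ker ≠ 0)
    (hFle : ((D.ker).map (powMonoidHom p)).relIndex D.ker ≤ p ^ b) :
    D.range.relIndex N.ker ≠ 0 ∧ N.range.relIndex D.ker ≠ 0 ∧
      p * N.range.relIndex D.ker ≤ p ^ t * D.range.relIndex N.ker := by
  have hp1 : 1 < p := hp.out.one_lt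
  have hp0 : 0 < p := hp.out.pos
  set pw : X →* X := powMonoidHom p with hpw
  set P : Subgroup X := pw.range with hP
  set T : Subgroup X := pw.ker with hTdef
  set F : Subgroup X := D.ker with hF
  set M : Subgroup X := N.ker with hM
  set Fp : Subgroup X := F.map pw with hFp
  set Mp : Subgroup X := M.map pw with hMp
  set DM : Subgroup X := M.map D with hDMdef
  set DX : Subgroup X := D.range with hDX
  set NX : Subgroup X := N.range with hNX
  set NXp : Subgroup X := NX.map pw with hNXp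
  -- basic inclusions
  have hDX_le_M : DX ≤ M := by
    rintro y ⟨x, rfl⟩
    exact hND x
  have hDM_le_DX : DM ≤ DX := by
    rintro y ⟨x, -, rfl⟩
    exact ⟨x, rfl⟩
  have hNX_le_F : NX ≤ F := by
    rintro y ⟨x, rfl⟩
    exact hDN x
  have hFp_le_NX : Fp ≤ NX := by
    rintro y ⟨f, hf, rfl⟩
    exact ⟨f, hNF f hf⟩
  have hT_le_F : T ≤ F := by
    intro x hx
    have hx' : x ^ p = 1 := hx
    exact hT x hx'
  have hT_le_M : T ≤ M := by
    intro x hx
    have hx' : x ^ p = 1 := hx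
    show N x = 1
    rw [hNF x (hT x hx'), hx']
  have hMp_le_DM : Mp ≤ DM := by
    rintro y ⟨x, hx, rfl⟩
    obtain ⟨y, hy, hxy⟩ := hPM x hx
    exact ⟨y, hy, hxy.symm⟩
  have hMp_le_M : Mp ≤ M := hMp_le_DM.trans (hDM_le_DX.trans hDX_le_M)
  have hMp_le_P : Mp ≤ P := by
    rintro y ⟨x, -, rfl⟩
    exact ⟨x, rfl⟩
  have hNpw : N.comp pw = pw.comp N := by
    ext x
    simp [hpw]
  -- (A) `[DX : DM] = [X : F M]`
  have hcomap2 : DM.comap D = F ⊔ M := by
    apply le_antisymm
    · intro x hx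
      rw [mem_comap] at hx
      obtain ⟨m, hm, hmx⟩ := hx
      have h1 : x * m⁻¹ ∈ F := by
        simp only [hF, MonoidHom.mem_ker, map_mul, map_inv]
        rw [hmx, mul_inv_cancel]
      have : x = x * m⁻¹ * m := by group
      rw [this]
      exact mul_mem_sup h1 hm
    · apply sup_le
      · intro x hx
        rw [mem_comap]
        have : D x = 1 := hx
        rw [this]
        exact one_mem _
      · intro x hx
        rw [mem_comap]
        exact ⟨x, hx, rfl⟩
  have hidx2 : (F ⊔ M).index = DM.relIndex DX := by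
    rw [← hcomap2, index_comap]
  -- (B) `[X : F M] = [NX : Fp]`
  have hmapNF : F.map N = Fp := by
    ext y
    simp only [mem_map, hFp]
    constructor
    · rintro ⟨x, hx, rfl⟩
      exact ⟨x, hx, (hNF x hx).symm⟩
    · rintro ⟨x, hx, rfl⟩
      exact ⟨x, hx, hNF x hx⟩
  have hmapNM : M.map N = ⊥ := by
    rw [eq_bot_iff]
    rintro y ⟨x, hx, rfl⟩
    exact hx
  have hidx3 : (F ⊔ M).index = Fp.relIndex NX := by
    have h := relIndex_map_map N (F ⊔ M) ⊤
    rw [Subgroup.map_sup, hmapNF, hmapNM, sup_bot_eq, ← MonoidHom.range_eq_map] at h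
    rw [h, ← hM, sup_assoc, sup_idem, top_sup_eq, relIndex_top_right]
  have e1 : DM.relIndex DX = Fp.relIndex NX := by rw [← hidx2, hidx3]
  have e2 : DM.relIndex DX * DX.relIndex M = DM.relIndex M :=
    relIndex_mul_relIndex DM DX M hDM_le_DX hDX_le_M
  have e3 : Fp.relIndex NX * NX.relIndex F = Fp.relIndex F :=
    relIndex_mul_relIndex Fp NX F hFp_le_NX hNX_le_F
  have star : DX.relIndex M * Fp.relIndex F = DM.relIndex M * NX.relIndex F := by
    rw [← e2, ← e3, e1]
    ring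
  -- (E) `[X : P] = [M : M ∩ P] * [NX : NXp]`
  have hmapNP : P.map N = NXp := by
    rw [hP, hNXp, hNX, MonoidHom.range_eq_map, MonoidHom.range_eq_map, Subgroup.map_map,
      Subgroup.map_map, hNpw]
  have hE : P.relIndex M * NXp.relIndex NX = P.index := by
    have h1 : (P ⊔ M).index = NXp.relIndex NX := by
      rw [← hmapNP, ← index_comap, comap_map_eq]
    have h2 : P.relIndex (P ⊔ M) * (P ⊔ M).index = P.index := relIndex_mul_index le_sup_left
    rw [relIndex_sup_left, h1] at h2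
    exact h2
  -- (F)
  have hMp_le_inf : Mp ≤ M ⊓ P := le_inf hMp_le_M hMp_le_P
  have hFm : Mp.relIndex (M ⊓ P) * P.relIndex M = Mp.relIndex M := by
    have h := relIndex_mul_relIndex Mp (M ⊓ P) M hMp_le_inf inf_le_left
    rwa [inf_relIndex_left] at h
  -- (G) `[M ∩ P : Mp] = |NX ∩ T|`
  set R : Subgroup X := T.comap N with hR
  have hM_le_R : M ≤ R := by
    intro x hx
    rw [hR, mem_comap]
    have : N x = 1 := hx
    rw [this]
    exact one_mem _
  have hinf_eq : M ⊓ P = R.map pw := by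
    ext y
    constructor
    · rintro ⟨hyM, x, rfl⟩
      refine ⟨x, ?_, rfl⟩
      show (N x) ^ p = 1
      rw [← map_pow]
      exact hyM
    · rintro ⟨r, hr, rfl⟩
      refine ⟨?_, r, rfl⟩
      show N (r ^ p) = 1
      rw [map_pow]
      exact hr
  have hG : Mp.relIndex (M ⊓ P) = Nat.card ↥(NX ⊓ T) := by
    rw [hinf_eq, hMp, relIndex_map_map, ← hTdef, sup_eq_left.mpr hT_le_M,
      sup_eq_left.mpr (hT_le_M.trans hM_le_R)]
    have hMbot : M = (⊥ : Subgroup X).comap N := by
      rw [MonoidHom.comap_bot]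
    rw [hMbot, relIndex_comap, relIndex_bot_left, hR, map_comap_eq]
  -- (H)
  have hNXp_le_Fp : NXp ≤ Fp := map_mono hNX_le_F
  have hH : Fp.relIndex F = NXp.relIndex NX * (NX ⊓ T).relIndex T := by
    have h1 : NXp.relIndex Fp * Fp.relIndex NX = NXp.relIndex NX :=
      relIndex_mul_relIndex NXp Fp NX hNXp_le_Fp hFp_le_NX
    have h2 : NXp.relIndex Fp = (NX ⊔ T).relIndex F := by
      rw [hNXp, hFp, relIndex_map_map, ← hTdef, sup_eq_left.mpr hT_le_F]
    have h3 : NX.relIndex (NX ⊔ T) * (NX ⊔ T).relIndex F = NX.relIndex F :=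
      relIndex_mul_relIndex NX (NX ⊔ T) F le_sup_left (sup_le hNX_le_F hT_le_F)
    rw [relIndex_sup_left] at h3
    rw [inf_relIndex_right, ← e3, ← h3, ← h1, h2]
    ring
  -- (I)
  have hI : Nat.card ↥(NX ⊓ T) * (NX ⊓ T).relIndex T = Nat.card T := by
    have h := relIndex_mul_relIndex (⊥ : Subgroup X) (NX ⊓ T) T bot_le inf_le_right
    rwa [relIndex_bot_left, relIndex_bot_left] at h
  -- (J)
  have hJ : Mp.relIndex M * Fp.relIndex F = P.index * Nat.card T := by
    rw [← hFm, hG, hH, ← hE, ← hI]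
    ring
  -- (K)
  have hcardT0 : Nat.card T ≠ 0 := Nat.card_ne_zero.mpr ⟨⟨1, one_mem _⟩, hTfin⟩
  have hpT : p ≤ Nat.card T := by
    have hζT : ζ ∈ T := hζp
    have hord : orderOf (⟨ζ, hζT⟩ : T) = p := by
      apply orderOf_eq_prime
      · apply Subtype.ext
        simpa using hζp
      · intro h
        exact hζ1 (congrArg Subtype.val h)
    have hdvd : p ∣ Nat.card T := by
      rw [← hord]
      exact orderOf_dvd_natCard _
    exact Nat.le_of_dvd (Nat.pos_of_ne_zero hcardT0) hdvd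
  -- notation for the numbers
  set m := Mp.relIndex M with hm
  set c := Fp.relIndex F with hc
  set a := DM.relIndex M with ha
  set h1 := DX.relIndex M with hh1
  set h0 := NX.relIndex F with hh0
  have hm0 : m ≠ 0 := by
    intro h
    rw [h, zero_mul] at hJ
    exact (mul_ne_zero hX hcardT0) hJ.symm
  have ha0 : a ≠ 0 := by
    intro h
    have hdvd : a ∣ m := relIndex_dvd_of_le_left M hMp_le_DM
    rw [h] at hdvd
    exact hm0 (Nat.eq_zero_of_zero_dvd hdvd)
  have hh00 : h0 ≠ 0 := by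
    intro h
    have hdvd : h0 ∣ c := relIndex_dvd_of_le_left F hFp_le_NX
    rw [h] at hdvd
    exact hF0 (Nat.eq_zero_of_zero_dvd hdvd)
  -- (N) the chain
  have hSp_le : iterImage D N (p - 1) ≤ Mp := by
    intro y hy
    rw [mem_iterImage_iff] at hy
    obtain ⟨x, hx, rfl⟩ := hy
    obtain ⟨y, hy, hxy⟩ := hDM x hx
    exact ⟨y, hy, hxy.symm⟩
  have hchain := relIndex_iterImage_le D N hND ha0 (p - 1)
  have hm_le : m ≤ a ^ (p - 1) :=
    (relIndex_le_of_le_left hSp_le hchain.2).trans hchain.1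
  -- (O) `a` is a power of `p`
  have hapow : ∃ k, a = p ^ k := by
    have hfin : Finite (↥M ⧸ DM.subgroupOf M) := by
      apply Nat.finite_of_card_ne_zero
      exact ha0
    have hpg : IsPGroup p (↥M ⧸ DM.subgroupOf M) := by
      intro q
      refine ⟨1, ?_⟩
      obtain ⟨x, rfl⟩ := QuotientGroup.mk_surjective q
      rw [pow_one, ← QuotientGroup.mk_pow, QuotientGroup.eq_one_iff, mem_subgroupOf]
      apply hMp_le_DM
      exact ⟨x, x.2, by simp [hpw]⟩
    exact (IsPGroup.iff_card).mp hpg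
  obtain ⟨k, hk⟩ := hapow
  -- (P) arithmetic
  have hmc : p ^ (p * b + 1) ≤ p ^ ((p - 1) * t) * (m * c) := by
    rw [hJ, pow_succ, ← mul_assoc]
    exact Nat.mul_le_mul hXge hpT
  have hkb : b + 1 ≤ t + k := by
    by_contra hlt
    push Not at hlt
    have hkb' : t + k ≤ b := Nat.lt_succ_iff.mp hlt
    have h2 : m * c ≤ p ^ (k * (p - 1)) * p ^ b := by
      apply Nat.mul_le_mul _ hFle
      rw [pow_mul, ← hk]
      exact hm_le
    have h3 : p ^ (p * b + 1) ≤ p ^ ((p - 1) * t + (k * (p - 1) + b)) := by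
      rw [pow_add p ((p - 1) * t), pow_add p (k * (p - 1)) b]
      exact hmc.trans (Nat.mul_le_mul_left _ h2)
    have h4 : p * b + 1 ≤ (p - 1) * t + (k * (p - 1) + b) := (Nat.pow_le_pow_iff_right hp1).mp h3
    have h5 : (t + k) * (p - 1) ≤ b * (p - 1) := Nat.mul_le_mul_right _ hkb'
    have h6 : b * (p - 1) + b = p * b := by
      obtain ⟨q, rfl⟩ : ∃ q, p = q + 1 := ⟨p - 1, by omega⟩
      simp only [Nat.add_sub_cancel]
      ring
    have h7 : (t + k) * (p - 1) = (p - 1) * t + k * (p - 1) := by ring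
    omega
  have ha_ge : p ^ (b + 1) ≤ p ^ t * a := by
    rw [hk, ← pow_add]
    exact Nat.pow_le_pow_right hp0 hkb
  have hh10 : h1 ≠ 0 := by
    intro h
    rw [h, zero_mul] at star
    exact (mul_ne_zero ha0 hh00) star.symm
  refine ⟨hh10, hh00, ?_⟩
  have h7 : p ^ b * (p * h0) ≤ p ^ b * (p ^ t * h1) := by
    calc p ^ b * (p * h0) = p ^ (b + 1) * h0 := by rw [pow_succ]; ring
      _ ≤ p ^ t * a * h0 := Nat.mul_le_mul_right _ ha_ge
      _ = p ^ t * (h1 * c) := by rw [star]; ring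
      _ ≤ p ^ t * (h1 * p ^ b) := Nat.mul_le_mul_left _ (Nat.mul_le_mul_left _ hFle)
      _ = p ^ b * (p ^ t * h1) := by ring
  exact Nat.le_of_mul_le_mul_left h7 (pow_pos hp0 b)

end

end Fermat.Agent.S55
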