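import Mathlib
import Fermat.Agent.S55.GFI.Defs

set_option autoImplicit false
set_option linter.unusedSectionVars false

/-!
# S55 / GFI-5 : enlarging `S` to kill the `S`-class group; monotonicity; bridge to
`Algebra.IsUnramifiedAt`

Helper names are prefixed `gfict_`.
-/

namespace Fermat.Agent.S55

open NumberField IsDedekindDomain

section general

variable {R : Type*} [CommRing R] [IsDedekindDomain R] {F : Type*} [Field F] [Algebra R F]
  [IsFractionRing R F]

open FractionalIdeal in
/-- the adic valuation of a nonzero element is `exp` of minus the multiplicity of `v` in the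
principal fractional ideal it generates. -/
theorem gfict_valuation_eq_exp_neg_count (v : HeightOneSpectrum R) {a : F} (ha : a ≠ 0) :
    v.valuation F a =
      WithZero.exp (-(FractionalIdeal.count F v (spanSingleton (nonZeroDivisors R) a))) := by
  classical
  obtain ⟨n, d, hd, rfl⟩ := IsFractionRing.div_surjective (A := R) a
  have hd0 : d ≠ 0 := nonZeroDivisors.ne_zero hd
  have hn0 : n ≠ 0 := by
    rintro rfl
    exact ha (by rw [map_zero, zero_div])
  have hdK : algebraMap R F d ≠ 0 := by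
    rwa [Ne, FaithfulSMul.algebraMap_eq_zero_iff]
  have hI : spanSingleton (nonZeroDivisors R) (algebraMap R F n / algebraMap R F d) =
      spanSingleton (nonZeroDivisors R) ((algebraMap R F d)⁻¹) *
        ((Ideal.span {n} : Ideal R) : FractionalIdeal (nonZeroDivisors R) F) := by
    rw [coeIdeal_span_singleton, spanSingleton_mul_spanSingleton, div_eq_inv_mul]
  have hI0 : spanSingleton (nonZeroDivisors R) (algebraMap R F n / algebraMap R F d) ≠ 0 := by
    rwa [spanSingleton_ne_zero_iff]
  rw [count_well_defined F v hI0 hI, map_div₀, HeightOneSpectrum.valuation_of_algebraMap,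
    HeightOneSpectrum.valuation_of_algebraMap, v.intValuation_if_neg hn0,
    v.intValuation_if_neg hd0, ← WithZero.exp_sub]
  congr 1
  ring

/-- a prime not containing the integral ideal `I` does not occur in it. -/
theorem gfict_count_coe_eq_zero (v : HeightOneSpectrum R) {I : Ideal R} (hI : I ≠ 0)
    (hv : ¬ v.asIdeal ∣ I) :
    FractionalIdeal.count F v (I : FractionalIdeal (nonZeroDivisors R) F) = 0 := by
  classical
  rw [FractionalIdeal.count_coe F v hI, Nat.cast_eq_zero]
  by_contra h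
  apply hv
  have h1 := (Associates.count_ne_zero_iff_dvd hI v.irreducible).mp h
  exact h1

end general

variable {K L : Type*} [Field K] [NumberField K] [Field L] [NumberField L] [Algebra K L]

theorem GfiClassTrivial.mono {S S' : Set (HeightOneSpectrum (𝓞 K))} (h : S ⊆ S')
    (hS : GfiClassTrivial K S) : GfiClassTrivial K S' := by
  intro m
  obtain ⟨a, ha⟩ := hS m
  exact ⟨a, fun v hv => ha v fun hvS => hv (h hvS)⟩

theorem GfiUnramOutside.mono {S S' : Set (HeightOneSpectrum (𝓞 K))} (h : S ⊆ S')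
    (hS : GfiUnramOutside K L S) : GfiUnramOutside K L S' :=
  fun w hw => hS w fun hwS => hw (h hwS)

variable (K) in
/-- Every finite set of primes can be enlarged to one with trivial `S`-class group
(finiteness of the class group). -/
theorem gfi_exists_classTrivial (S : Finset (HeightOneSpectrum (𝓞 K))) :
    ∃ S' : Finset (HeightOneSpectrum (𝓞 K)), S ⊆ S' ∧
      GfiClassTrivial K (S' : Set (HeightOneSpectrum (𝓞 K))) := by
  classical
  have hrep : ∀ c : ClassGroup (𝓞 K), ∃ I : nonZeroDivisors (Ideal (𝓞 K)), ClassGroup.mk0 I = c :=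
    ClassGroup.mk0_surjective
  choose I hI using hrep
  have hI0 : ∀ c, (I c : Ideal (𝓞 K)) ≠ 0 := fun c => nonZeroDivisors.coe_ne_zero (I c)
  have hfin : ∀ c, {v : HeightOneSpectrum (𝓞 K) | v.asIdeal ∣ (I c : Ideal (𝓞 K))}.Finite :=
    fun c => Ideal.finite_factors (hI0 c)
  refine ⟨S ∪ Finset.univ.biUnion (fun c => (hfin c).toFinset), Finset.subset_union_left, ?_⟩
  intro m
  -- the fractional ideal with `count = -m`
  set J : FractionalIdeal (nonZeroDivisors (𝓞 K)) K :=
    (-m).prod (fun v n => (v.asIdeal : FractionalIdeal (nonZeroDivisors (𝓞 K)) K) ^ n) with hJ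
  have hJ0 : J ≠ 0 := by
    rw [hJ, Finsupp.prod]
    refine Finset.prod_ne_zero_iff.mpr fun v _ => zpow_ne_zero _ ?_
    exact FractionalIdeal.coeIdeal_ne_zero.mpr v.ne_bot
  have hJc : ∀ v, FractionalIdeal.count K v J = -m v := fun v => by
    rw [hJ, FractionalIdeal.count_finsuppProd]
    rfl
  set c : ClassGroup (𝓞 K) := ClassGroup.mk K (Units.mk0 J hJ0) with hc
  have hprod : ClassGroup.mk K (Units.mk0 J hJ0 * FractionalIdeal.mk0 K (I c⁻¹)) = 1 := by
    rw [map_mul, ClassGroup.mk_mk0, hI, ← hc, mul_inv_cancel]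
  rw [ClassGroup.mk_eq_one_iff] at hprod
  have hcoe : ((Units.mk0 J hJ0 * FractionalIdeal.mk0 K (I c⁻¹) :
      (FractionalIdeal (nonZeroDivisors (𝓞 K)) K)ˣ) : FractionalIdeal (nonZeroDivisors (𝓞 K)) K) =
      J * ((I c⁻¹ : Ideal (𝓞 K)) : FractionalIdeal (nonZeroDivisors (𝓞 K)) K) := by
    rw [Units.val_mul, Units.val_mk0, FractionalIdeal.coe_mk0]
  obtain ⟨a, ha⟩ := (FractionalIdeal.isPrincipal_iff _).mp hprod
  rw [hcoe] at ha
  have hIc0 : ((I c⁻¹ : Ideal (𝓞 K)) : FractionalIdeal (nonZeroDivisors (𝓞 K)) K) ≠ 0 :=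
    FractionalIdeal.coeIdeal_ne_zero.mpr (hI0 c⁻¹)
  have ha0 : a ≠ 0 := by
    rintro rfl
    rw [FractionalIdeal.spanSingleton_zero] at ha
    exact mul_ne_zero hJ0 hIc0 ha
  refine ⟨Units.mk0 a ha0, fun v hv => ?_⟩
  rw [Units.val_mk0, gfict_valuation_eq_exp_neg_count v ha0, ← ha,
    FractionalIdeal.count_mul K v hJ0 hIc0, hJc]
  have hnd : ¬ v.asIdeal ∣ (I c⁻¹ : Ideal (𝓞 K)) := by
    intro hdvd
    apply hv
    rw [Finset.coe_union, Set.mem_union]
    right
    rw [Finset.mem_coe, Finset.mem_biUnion]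
    exact ⟨c⁻¹, Finset.mem_univ _, (Set.Finite.mem_toFinset _).mpr hdvd⟩
  rw [gfict_count_coe_eq_zero v (hI0 c⁻¹) hnd, add_zero, neg_neg]

/-- Bridge from Mathlib's `Algebra.IsUnramifiedAt`. -/
theorem gfiUnramOutside_of_isUnramifiedAt (S : Set (HeightOneSpectrum (𝓞 K)))
    (h : ∀ w : HeightOneSpectrum (𝓞 L), w.under (𝓞 K) ∉ S →
      Algebra.IsUnramifiedAt (𝓞 K) w.asIdeal) : GfiUnramOutside K L S := by
  intro w hw
  have := h w hw
  show (w.under (𝓞 K)).asIdeal.ramificationIdx' w.asIdeal = 1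
  rw [Ideal.ramificationIdx'_eq_ramificationIdx (w.under (𝓞 K)).asIdeal w.asIdeal
    (w.under (𝓞 K)).ne_bot]
  exact Ideal.ramificationIdx_eq_one_of_isUnramifiedAt

end Fermat.Agent.S55
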