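import Fermat.Agent.S55.GFI.Defs

set_option autoImplicit false
set_option linter.unusedSectionVars false

/-!
# S55 / GFI-2b: fixed points and norms of `S`-units
-/

namespace Fermat.Agent.S55

open NumberField IsDedekindDomain Fermat.Agent.S11

section Fixed

variable {K L : Type*} [Field K] [NumberField K] [Field L] [NumberField L] [Algebra K L]

/-- The image in `L` of the norm of a unit is the product of its conjugates (in `Lˣ`). -/
theorem gfi_map_norm_eq_prod [IsGalois K L] (x : Lˣ) :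
    Units.map (algebraMap K L : K →* L) (Units.map (Algebra.norm K : L →* K) x) =
      ∏ τ : L ≃ₐ[K] L, Units.map (τ : L →* L) x := by
  apply Units.ext
  rw [Units.coe_prod]
  show algebraMap K L (Algebra.norm K (x : L)) = ∏ τ : L ≃ₐ[K] L, τ (x : L)
  exact Algebra.norm_eq_prod_automorphisms K (x : L)

/-- The norm of an `S_L`-unit is an `S`-unit. -/
theorem gfi_norm_mem_unit [IsGalois K L] (S : Set (HeightOneSpectrum (𝓞 K))) {x : Lˣ}
    (hx : x ∈ (gfiAbove K L S).unit L) :
    Units.map (Algebra.norm K : L →* K) x ∈ S.unit K := by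
  rw [← gfi_algebraMap_mem_unit_iff (L := L), gfi_map_norm_eq_prod]
  exact Subgroup.prod_mem _ fun τ _ => gfi_map_mem_unit S τ hx

variable (K L) in
/-- The norm `E_L → E_K`. -/
noncomputable def gfiNorm [IsGalois K L] (S : Set (HeightOneSpectrum (𝓞 K))) :
    (gfiAbove K L S).unit L →* S.unit K :=
  ((Units.map (Algebra.norm K : L →* K)).comp ((gfiAbove K L S).unit L).subtype).codRestrict _
    fun x => gfi_norm_mem_unit S x.2

theorem gfiNorm_apply [IsGalois K L] (S : Set (HeightOneSpectrum (𝓞 K)))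
    (x : (gfiAbove K L S).unit L) :
    (((gfiNorm K L S x : S.unit K) : Kˣ) : K) = Algebra.norm K ((x : Lˣ) : L) := rfl

/-- The fixed points of a generator `σ` on `E_L` are exactly `E_K`. -/
theorem gfi_divHom_ker [IsGalois K L] (σ : L ≃ₐ[K] L)
    (hσ : ∀ τ : L ≃ₐ[K] L, τ ∈ Subgroup.zpowers σ) (S : Set (HeightOneSpectrum (𝓞 K))) :
    (divHom (gfiAut K S σ)).ker = (gfiIncl K L S).range := by
  ext x
  rw [MonoidHom.mem_ker, divHom_apply, div_eq_one]
  constructor
  · intro hx
    have hx' : σ ((x : Lˣ) : L) = ((x : Lˣ) : L) := by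
      rw [← gfiAut_apply, hx]
    obtain ⟨y, hy⟩ := fixedUnits_mem_range_of_fixed σ hσ _ hx'
    have hy0 : y ≠ 0 := by
      rintro rfl
      rw [map_zero] at hy
      exact (x : Lˣ).ne_zero hy.symm
    have hmap : Units.map (algebraMap K L : K →* L) (Units.mk0 y hy0) = (x : Lˣ) :=
      Units.ext hy
    have hmem : Units.mk0 y hy0 ∈ S.unit K := by
      rw [← gfi_algebraMap_mem_unit_iff (L := L), hmap]
      exact x.2
    exact ⟨⟨Units.mk0 y hy0, hmem⟩, gfi_unit_ext hy⟩
  · rintro ⟨e, rfl⟩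
    apply gfi_unit_ext
    rw [gfiAut_apply, gfiIncl_apply]
    exact σ.commutes _

/-- The abstract norm `∏_{i<n} σ^i` on `E_L` is the field norm followed by `E_K → E_L`. -/
theorem gfiIncl_gfiNorm [IsGalois K L] {n : ℕ} (hdeg : Module.finrank K L = n) (σ : L ≃ₐ[K] L)
    (hσ : ∀ τ : L ≃ₐ[K] L, τ ∈ Subgroup.zpowers σ) (S : Set (HeightOneSpectrum (𝓞 K)))
    (x : (gfiAbove K L S).unit L) :
    gfiIncl K L S (gfiNorm K L S x) = normHom n (gfiAut K S σ) x := by
  apply gfi_unit_ext
  rw [gfiIncl_apply, gfiNorm_apply, Algebra.norm_eq_prod_automorphisms,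
    prod_aut_eq_prod_range hdeg σ hσ (fun τ => τ ((x : Lˣ) : L)), S11.normHom_apply]
  have h : ∀ (s : Finset ℕ) (f : ℕ → (gfiAbove K L S).unit L),
      ((((∏ i ∈ s, f i : (gfiAbove K L S).unit L)) : Lˣ) : L) = ∏ i ∈ s, (((f i : Lˣ)) : L) := by
    intro s f
    rw [← Units.coe_prod]
    congr 1
    exact map_prod ((gfiAbove K L S).unit L).subtype f s
  rw [h]
  exact Finset.prod_congr rfl fun i _ => (gfiAut_iterate S σ i x).symm

/-- `σ^n = 1` on `E_L`. -/
theorem gfiAut_iterate_finrank [IsGalois K L] {n : ℕ} (hdeg : Module.finrank K L = n)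
    (σ : L ≃ₐ[K] L) (S : Set (HeightOneSpectrum (𝓞 K))) (x : (gfiAbove K L S).unit L) :
    (gfiAut K S σ)^[n] x = x := by
  have hcard : Nat.card (L ≃ₐ[K] L) = n := by rw [IsGalois.card_aut_eq_finrank, hdeg]
  have hσn : σ ^ n = 1 := by rw [← hcard]; exact pow_card_eq_one'
  apply gfi_unit_ext
  rw [gfiAut_iterate, hσn, AlgEquiv.one_apply]

end Fixed

end Fermat.Agent.S55
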