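import Fermat.Agent.S55.GFI.Spec

set_option autoImplicit false
set_option linter.unusedSectionVars false

/-!
# S55 / GFI-2c: the Herbrand quotient of the `S`-units (inequality form)
-/

namespace Fermat.Agent.S55

open NumberField IsDedekindDomain Fermat.Agent.S11 Fermat.Agent.S14

section SUnitHerbrand

variable {K L : Type*} [Field K] [NumberField K] [Field L] [NumberField L] [Algebra K L]

/-- Roots of unity are `S`-units. -/
theorem gfi_rootOfUnity_mem_unit (S : Set (HeightOneSpectrum (𝓞 K))) {n : ℕ} (hn : n ≠ 0)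
    (x : Kˣ) (hx : x ^ n = 1) : x ∈ S.unit K := by
  intro v _
  have h1 : (v.valuation K (x : K)) ^ n = 1 := by
    rw [← map_pow, ← Units.val_pow_eq_pow_val, hx, Units.val_one, map_one]
  exact (pow_eq_one_iff_left hn).mp h1

/-- The index of the `p`-th powers in the group of `T`-units, for a finite set `T` of primes. -/
theorem gfi_index_pow_of_finite {p : ℕ} [Fact p.Prime] {ζ : L} (hζ : IsPrimitiveRoot ζ p)
    (T : Set (HeightOneSpectrum (𝓞 L))) (hT : T.Finite) :
    (powMonoidHom p : T.unit L →* T.unit L).range.index = p ^ (Units.rank L + T.ncard + 1) := by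
  have key : ∀ (F : Finset (HeightOneSpectrum (𝓞 L))) (T : Set (HeightOneSpectrum (𝓞 L))),
      T = (F : Set (HeightOneSpectrum (𝓞 L))) →
      (powMonoidHom p : T.unit L →* T.unit L).range.index = p ^ (Units.rank L + F.card + 1) := by
    rintro F T rfl
    exact sunit_index_pow_prime L F hζ
  rw [key hT.toFinset T hT.coe_toFinset.symm, Set.ncard_eq_toFinset_card T hT]

/-- **Herbrand quotient of the `S`-units** (inequality form): for `L/K` cyclic of odd prime degree
`p` with `ζ_p ∈ K`, `p * [E_K : N E_L] ≤ p ^ #nonsplit(S) * [E_L ∩ ker N : (σ - 1) E_L]`. -/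
theorem gfi_herbrand_sunits {p : ℕ} [hp : Fact p.Prime] (hp2 : p ≠ 2) [IsGalois K L]
    (hdeg : Module.finrank K L = p) (σ : L ≃ₐ[K] L)
    (hσ : ∀ τ : L ≃ₐ[K] L, τ ∈ Subgroup.zpowers σ) {ζ : K} (hζ : IsPrimitiveRoot ζ p)
    (S : Finset (HeightOneSpectrum (𝓞 K))) :
    (divHom (gfiAut K (S : Set (HeightOneSpectrum (𝓞 K))) σ)).range.relIndex
        (normHom p (gfiAut K (S : Set (HeightOneSpectrum (𝓞 K))) σ)).ker ≠ 0 ∧
    (normHom p (gfiAut K (S : Set (HeightOneSpectrum (𝓞 K))) σ)).range.relIndex
        (divHom (gfiAut K (S : Set (HeightOneSpectrum (𝓞 K))) σ)).ker ≠ 0 ∧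
    p * (normHom p (gfiAut K (S : Set (HeightOneSpectrum (𝓞 K))) σ)).range.relIndex
        (divHom (gfiAut K (S : Set (HeightOneSpectrum (𝓞 K))) σ)).ker ≤
      p ^ (gfiNonsplit K L S).card *
        (divHom (gfiAut K (S : Set (HeightOneSpectrum (𝓞 K))) σ)).range.relIndex
          (normHom p (gfiAut K (S : Set (HeightOneSpectrum (𝓞 K))) σ)).ker := by
  have hp0 : p ≠ 0 := hp.out.ne_zero
  set SK : Set (HeightOneSpectrum (𝓞 K)) := (S : Set (HeightOneSpectrum (𝓞 K))) with hSK
  set s := gfiAut K SK σ with hs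
  have hsp : ∀ x, s^[p] x = x := fun x => gfiAut_iterate_finrank hdeg σ SK x
  -- `ζ` in `L`
  have hζL : IsPrimitiveRoot (algebraMap K L ζ) p :=
    hζ.map_of_injective (algebraMap K L).injective
  -- `p`-th roots of unity of `L` are fixed by `σ`
  have hfix : ∀ x : L, x ^ p = 1 → σ x = x := by
    intro x hx
    have : NeZero p := ⟨hp0⟩
    obtain ⟨i, -, rfl⟩ := hζL.eq_pow_of_pow_eq_one hx
    rw [map_pow, AlgEquiv.commutes]
  -- the `S`-unit `ζ`
  have hζ0 : ζ ≠ 0 := hζ.ne_zero hp0
  have hζu : (Units.mk0 ζ hζ0) ^ p = 1 := by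
    apply Units.ext
    rw [Units.val_pow_eq_pow_val, Units.val_mk0, Units.val_one]
    exact hζ.pow_eq_one
  let uK : SK.unit K := ⟨Units.mk0 ζ hζ0, gfi_rootOfUnity_mem_unit SK hp0 _ hζu⟩
  let u : (gfiAbove K L SK).unit L := gfiIncl K L SK uK
  have hu_coe : ((u : Lˣ) : L) = algebraMap K L ζ := rfl
  have hζ1 : u ≠ 1 := by
    intro h
    have h1 : algebraMap K L ζ = 1 := by
      rw [← hu_coe, h]; rfl
    exact hζL.ne_one hp.out.one_lt h1
  have hζp : u ^ p = 1 := by
    apply gfi_unit_ext
    show (((u ^ p : (gfiAbove K L SK).unit L) : Lˣ) : L) = 1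
    rw [Subgroup.coe_pow, Units.val_pow_eq_pow_val, hu_coe]
    exact hζL.pow_eq_one
  -- hypotheses of the abstract lemma
  have hND : ∀ x, normHom p s (divHom s x) = 1 := by
    intro x
    rw [divHom_apply, map_div, normHom_map p s hsp, div_self']
  have hDN : ∀ x, divHom s (normHom p s x) = 1 := by
    intro x
    rw [divHom_apply, map_normHom p s hsp, div_self']
  have hNF : ∀ x, divHom s x = 1 → normHom p s x = x ^ p := by
    intro x hx
    rw [divHom_apply, div_eq_one] at hx
    exact normHom_of_fixed p s x hx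
  have hT : ∀ x, x ^ p = 1 → divHom s x = 1 := by
    intro x hx
    rw [divHom_apply, div_eq_one]
    apply gfi_unit_ext
    rw [hs, gfiAut_apply]
    apply hfix
    have h1 : (((x ^ p : (gfiAbove K L SK).unit L) : Lˣ) : L) = 1 := by rw [hx]; rfl
    rwa [Subgroup.coe_pow, Units.val_pow_eq_pow_val] at h1
  have hDM : ∀ x, normHom p s x = 1 →
      ∃ y, normHom p s y = 1 ∧ (divHom s)^[p - 1] x = y ^ p := by
    intro x hx
    exact exists_pow_eq_iterate_of_prod_eq_one p s x hx
  have hPM : ∀ x, normHom p s x = 1 → ∃ y, normHom p s y = 1 ∧ x ^ p = divHom s y :=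
    fun x hx => exists_pow_eq_divHom_of_normHom_eq_one p hp.out.pos s hsp x hx
  have hTfin : Finite (powMonoidHom p : (gfiAbove K L SK).unit L →* _).ker := by
    have : NeZero p := ⟨hp0⟩
    let f : (powMonoidHom p : (gfiAbove K L SK).unit L →* _).ker → rootsOfUnity p L :=
      fun x => ⟨((x : (gfiAbove K L SK).unit L) : Lˣ), by
        rw [mem_rootsOfUnity]
        have := x.2
        rw [MonoidHom.mem_ker, powMonoidHom_apply] at this
        rw [← Subgroup.coe_pow, this]; rfl⟩
    have hf : Function.Injective f := by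
      intro x y hxy
      apply Subtype.ext
      apply Subtype.ext
      exact congrArg (fun z : rootsOfUnity p L => (z : Lˣ)) hxy
    exact Finite.of_injective f hf
  -- the index of the `p`-th powers in `E_L`
  have hfinL : (gfiAbove K L SK).Finite := gfiAbove_finite S.finite_toSet
  have hidxL := gfi_index_pow_of_finite hζL (gfiAbove K L SK) hfinL
  have hcount := gfiAbove_ncard (K := K) (L := L) hdeg S
  have hrank := rank_add_one_eq_mul hp2 hdeg hζ
  set b := Units.rank K + S.card + 1 with hb
  set t := (gfiNonsplit K L S).card with ht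
  have hX : (powMonoidHom p : (gfiAbove K L SK).unit L →* _).range.index ≠ 0 := by
    rw [hidxL]
    exact pow_ne_zero _ hp0
  have hXge : p ^ (p * b) ≤
      p ^ ((p - 1) * t) * (powMonoidHom p : (gfiAbove K L SK).unit L →* _).range.index := by
    rw [hidxL, ← pow_add]
    apply Nat.pow_le_pow_right hp.out.pos
    have h1 : p * b = p * (Units.rank K + 1) + p * S.card := by rw [hb]; ring
    have h2 : (gfiAbove K L SK).ncard + (p - 1) * t = p * S.card := hcount
    linarith [h1, h2, hrank]
  -- the fixed `S`-units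
  have hker : (divHom s).ker = Subgroup.map (gfiIncl K L SK) ⊤ := by
    rw [hs, gfi_divHom_ker σ hσ SK, MonoidHom.range_eq_map]
  have hkerp : ((divHom s).ker).map (powMonoidHom p) =
      Subgroup.map (gfiIncl K L SK) (powMonoidHom p : SK.unit K →* SK.unit K).range := by
    rw [hker, MonoidHom.range_eq_map, Subgroup.map_map, Subgroup.map_map]
    congr 1
    ext x
    simp
  have hidxK : (powMonoidHom p : SK.unit K →* SK.unit K).range.index = p ^ b :=
    sunit_index_pow_prime K S hζ
  have hF := relIndex_map_map_le (gfiIncl K L SK)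
    (A := (powMonoidHom p : SK.unit K →* SK.unit K).range) (B := ⊤) le_top
    (by rw [Subgroup.relIndex_top_right, hidxK]; exact pow_ne_zero _ hp0)
  rw [Subgroup.relIndex_top_right, hidxK, ← hker, ← hkerp] at hF
  exact gfi_herbrand_abstract p (divHom s) (normHom p s) u b t hND hDN hNF hT hDM hPM hζ1 hζp
    hTfin hX hXge hF.2 hF.1

end SUnitHerbrand

end Fermat.Agent.S55
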