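import Fermat.Agent.S55.GFI.Defs
import Fermat.Agent.S55.GFI.Abstract
import Fermat.Agent.S55.SUnits
import Fermat.Agent.S55.GFI.Fixed
import Fermat.Agent.S55.GFI.H1
import Fermat.Agent.S55.GFI.Places
import Fermat.Agent.S55.GFI.ClassTrivial

/-!
# S55 / GFI: the former SPEC file, now a pure import shim (all leaves are real files):
`Places.lean` (GFI-2a, helper23), `Fixed.lean` (GFI-2b), `H1.lean` (GFI-3), `ClassTrivial.lean`
(GFI-5, helper17); assembly in `SUnitHerbrand.lean` (GFI-2c) and `FirstIneq.lean` (GFI-4).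
-/
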